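import Mathlib
import Fermat.Agent.S41.H761.CosetSystem

/-!
# Row S41, block PD, leaf TR — restriction / corestriction of cocycles (helper683)

Mathlib-only cores (plus the Mathlib-only `S41/H761/CosetSystem.lean`) of the four statements
`TransferAlongEquivStatement`, `ManinRepResStatement`, `ManinRepCoresStatement`,
`ManinFormAdjointStatement` of `Spec/PD.lean`, stated WITHOUT the `Spec` definitions so that they
can be used with either family of interface files (`Spec/Defs.lean` or `Spec/HK.lean`).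

* `pushFwd hle m'` : the push-forward of functions along `π : G ⧸ Γ' → G ⧸ Γ` (fibre sums);
* `trfH ι ψ` : verbatim copy of `Spec.trf` (`= Spec.transferAlong`), the transfer along an
  injective homomorphism with finite-index range;
* `trfH_comp_equiv` : TR-4;
* `cocycle_res` : TR-1 (pull-back of cocycles);
* `cocycle_pushFwd`, `trfH_inclusion_apply` : TR-2 (the transfer is the push-forward of cocycles);
* `parData_pushFwd`, `sum_pullback_mul_eq` : TR-3.
-/

set_option autoImplicit false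

namespace Fermat.Agent.S41.H683

open scoped Pointwise

section Fibre

variable {G : Type*} [Group G] {Γ' Γ : Subgroup G}

/-- `π : G ⧸ Γ' → G ⧸ Γ` is equivariant. -/
theorem quotientMapOfLE_smul (hle : Γ' ≤ Γ) (g : G) (x' : G ⧸ Γ') :
    Subgroup.quotientMapOfLE hle (g • x') = g • Subgroup.quotientMapOfLE hle x' := by
  induction x' using QuotientGroup.induction_on with
  | H h => rfl

/-- The push-forward of a function along `π : G ⧸ Γ' → G ⧸ Γ` (sum over the fibres). -/
noncomputable def pushFwd (hle : Γ' ≤ Γ) {A : Type*} [AddCommMonoid A] (m' : G ⧸ Γ' → A)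
    (x : G ⧸ Γ) : A :=
  ∑ᶠ (x' : G ⧸ Γ') (_ : Subgroup.quotientMapOfLE hle x' = x), m' x'

variable {A : Type*} [AddCommGroup A]

theorem pushFwd_eq_sum (hle : Γ' ≤ Γ) [Fintype (G ⧸ Γ')] [DecidableEq (G ⧸ Γ)]
    (m' : G ⧸ Γ' → A) (x : G ⧸ Γ) :
    pushFwd hle m' x =
      ∑ x' : G ⧸ Γ', if Subgroup.quotientMapOfLE hle x' = x then m' x' else 0 := by
  unfold pushFwd
  rw [finsum_eq_sum_of_fintype]
  refine Finset.sum_congr rfl fun x' _ => ?_
  rw [finsum_eq_if]

/-- The push-forward commutes with the action of `G`. -/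
theorem pushFwd_smul (hle : Γ' ≤ Γ) (m' : G ⧸ Γ' → A) (g : G) (x : G ⧸ Γ) :
    pushFwd hle m' (g • x) = pushFwd hle (fun y => m' (g • y)) x := by
  unfold pushFwd
  rw [← finsum_comp_equiv (MulAction.toPerm g : Equiv.Perm (G ⧸ Γ'))]
  refine finsum_congr fun y => ?_
  have hiff : Subgroup.quotientMapOfLE hle ((MulAction.toPerm g : Equiv.Perm (G ⧸ Γ')) y) = g • x ↔
      Subgroup.quotientMapOfLE hle y = x := by
    rw [MulAction.toPerm_apply, quotientMapOfLE_smul]
    exact smul_left_cancel_iff g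
  classical
  rw [finsum_eq_if, finsum_eq_if]
  by_cases h : Subgroup.quotientMapOfLE hle y = x
  · rw [if_pos h, if_pos (hiff.mpr h)]
    rfl
  · rw [if_neg h, if_neg (fun hh => h (hiff.mp hh))]

theorem pushFwd_sub (hle : Γ' ≤ Γ) [Finite (G ⧸ Γ')] (m₁ m₂ : G ⧸ Γ' → A) (x : G ⧸ Γ) :
    pushFwd hle (fun y => m₁ y - m₂ y) x = pushFwd hle m₁ x - pushFwd hle m₂ x := by
  classical
  let _ := Fintype.ofFinite (G ⧸ Γ')
  rw [pushFwd_eq_sum, pushFwd_eq_sum, pushFwd_eq_sum, ← Finset.sum_sub_distrib]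
  refine Finset.sum_congr rfl fun x' _ => ?_
  split_ifs <;> simp

theorem pushFwd_add (hle : Γ' ≤ Γ) [Finite (G ⧸ Γ')] (m₁ m₂ : G ⧸ Γ' → A) (x : G ⧸ Γ) :
    pushFwd hle (fun y => m₁ y + m₂ y) x = pushFwd hle m₁ x + pushFwd hle m₂ x := by
  classical
  let _ := Fintype.ofFinite (G ⧸ Γ')
  rw [pushFwd_eq_sum, pushFwd_eq_sum, pushFwd_eq_sum, ← Finset.sum_add_distrib]
  refine Finset.sum_congr rfl fun x' _ => ?_
  split_ifs <;> simp

theorem pushFwd_zero (hle : Γ' ≤ Γ) (x : G ⧸ Γ) :
    pushFwd hle (fun _ => (0 : A)) x = 0 := by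
  unfold pushFwd
  simp

/-- Projection formula: `∑ₓ m x * (π_* F) x = ∑ₓ' m (π x') * F x'`. -/
theorem sum_mul_pushFwd (hle : Γ' ≤ Γ) {R : Type*} [CommRing R] [Fintype (G ⧸ Γ')]
    [Fintype (G ⧸ Γ)] (m : G ⧸ Γ → R) (F : G ⧸ Γ' → R) :
    ∑ x : G ⧸ Γ, m x * pushFwd hle F x =
      ∑ x' : G ⧸ Γ', m (Subgroup.quotientMapOfLE hle x') * F x' := by
  classical
  simp only [pushFwd_eq_sum, Finset.mul_sum]
  rw [Finset.sum_comm]
  refine Finset.sum_congr rfl fun x' _ => ?_
  rw [Finset.sum_eq_single (Subgroup.quotientMapOfLE hle x')]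
  · rw [if_pos rfl]
  · intro x _ hx
    rw [if_neg (fun h => hx h.symm), mul_zero]
  · intro h
    exact absurd (Finset.mem_univ _) h

end Fibre

section Trf

variable {G H : Type*} [Group G] [Group H] {A : Type*} [AddCommGroup A]

/-- Transfer of `ψ : Additive H →+ A` along an injective `ι : H →* G` with finite-index range
(`0` otherwise).  Verbatim the definition of `Spec.trf` / `Spec.transferAlong`. -/
noncomputable def trfH (ι : H →* G) (ψ : Additive H →+ A) : Additive G →+ A :=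
  open scoped Classical in
  if h : Function.Injective ι ∧ ι.range.FiniteIndex then
    haveI := h.2
    MonoidHom.toAdditiveLeft
      (MonoidHom.transfer
        ((AddMonoidHom.toMultiplicativeRight ψ).comp
          (MonoidHom.ofInjective h.1).symm.toMonoidHom))
  else 0

theorem trfH_def (ι : H →* G) (h : Function.Injective ι ∧ ι.range.FiniteIndex)
    (ψ : Additive H →+ A) :
    trfH ι ψ = haveI := h.2
      MonoidHom.toAdditiveLeft
        (MonoidHom.transfer
          ((AddMonoidHom.toMultiplicativeRight ψ).comp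
            (MonoidHom.ofInjective h.1).symm.toMonoidHom)) := by
  unfold trfH
  rw [dif_pos h]

theorem trfH_of_not (ι : H →* G) (h : ¬ (Function.Injective ι ∧ ι.range.FiniteIndex))
    (ψ : Additive H →+ A) : trfH ι ψ = 0 := by
  unfold trfH
  rw [dif_neg h]

/-- The transfer depends only on the subgroup and on the values of the homomorphism. -/
theorem transfer_congr_subgroup {B : Type*} [CommGroup B] {H₁ H₂ : Subgroup G} (h : H₁ = H₂)
    [H₁.FiniteIndex] [H₂.FiniteIndex] (φ₁ : H₁ →* B) (φ₂ : H₂ →* B)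
    (hφ : ∀ x : H₁, φ₁ x = φ₂ ⟨x, h ▸ x.2⟩) : φ₁.transfer = φ₂.transfer := by
  subst h
  have : φ₁ = φ₂ := MonoidHom.ext fun x => hφ x
  rw [this]

/-- **TR-4**: transfer along `f' ∘ e`, `e` an isomorphism. -/
theorem trfH_comp_equiv {H' : Type*} [Group H'] (e : H ≃* H') (f' : H' →* G)
    (ψ : Additive H →+ A) :
    trfH (f'.comp e.toMonoidHom) ψ =
      trfH f' (ψ.comp (MonoidHom.toAdditive e.symm.toMonoidHom)) := by
  have hrange : (f'.comp e.toMonoidHom).range = f'.range := by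
    ext x
    constructor
    · rintro ⟨y, rfl⟩
      exact ⟨e y, rfl⟩
    · rintro ⟨z, rfl⟩
      exact ⟨e.symm z, by simp⟩
  have hinj : Function.Injective (f'.comp e.toMonoidHom) ↔ Function.Injective f' := by
    constructor
    · intro h a b hab
      have := h (a₁ := e.symm a) (a₂ := e.symm b) (by simpa using hab)
      exact e.symm.injective this
    · intro h
      exact h.comp e.injective
  by_cases hc : Function.Injective f' ∧ f'.range.FiniteIndex
  · have hc' : Function.Injective (f'.comp e.toMonoidHom) ∧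
        (f'.comp e.toMonoidHom).range.FiniteIndex := ⟨hinj.mpr hc.1, by rw [hrange]; exact hc.2⟩
    rw [trfH_def _ hc', trfH_def _ hc]
    have := hc.2
    have := hc'.2
    congr 1
    refine transfer_congr_subgroup hrange _ _ fun x => ?_
    simp only [MonoidHom.coe_comp, Function.comp_apply, MulEquiv.coe_toMonoidHom]
    -- the two preimages agree
    have h1 : f' (e ((MonoidHom.ofInjective hc'.1).symm x)) = (x : G) := by
      have h0 := MonoidHom.ofInjective_apply hc'.1 (x := (MonoidHom.ofInjective hc'.1).symm x)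
      rw [MulEquiv.apply_symm_apply] at h0
      exact h0.symm
    have h2 : f' ((MonoidHom.ofInjective hc.1).symm ⟨x, hrange ▸ x.2⟩) = (x : G) := by
      have h0 := MonoidHom.ofInjective_apply hc.1
        (x := (MonoidHom.ofInjective hc.1).symm ⟨x, hrange ▸ x.2⟩)
      rw [MulEquiv.apply_symm_apply] at h0
      exact h0.symm
    have h3 : e ((MonoidHom.ofInjective hc'.1).symm x) =
        (MonoidHom.ofInjective hc.1).symm ⟨x, hrange ▸ x.2⟩ := hc.1 (h1.trans h2.symm)
    show ψ (Additive.ofMul ((MonoidHom.ofInjective hc'.1).symm x)) =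
      ψ (Additive.ofMul (e.symm ((MonoidHom.ofInjective hc.1).symm ⟨x, hrange ▸ x.2⟩)))
    rw [← h3, MulEquiv.symm_apply_apply]
  · have hc' : ¬ (Function.Injective (f'.comp e.toMonoidHom) ∧
        (f'.comp e.toMonoidHom).range.FiniteIndex) := by
      rintro ⟨h1, h2⟩
      exact hc ⟨hinj.mp h1, by rw [← hrange]; exact h2⟩
    rw [trfH_of_not _ hc', trfH_of_not _ hc]

end Trf

section Cocycle

variable {G : Type*} [Group G] {Γ' Γ : Subgroup G} {A : Type*} [AddCommGroup A]

/-- **TR-1**: the pull-back of a cocycle along `π : G ⧸ Γ' → G ⧸ Γ` is a cocycle. -/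
theorem cocycle_res (hle : Γ' ≤ Γ) (f : G → G ⧸ Γ → A)
    (hf : ∀ (g h : G) (x : G ⧸ Γ), f (g * h) x = f h x + f g (h • x)) :
    ∀ (g h : G) (x : G ⧸ Γ'),
      f (g * h) (Subgroup.quotientMapOfLE hle x) =
        f h (Subgroup.quotientMapOfLE hle x) + f g (Subgroup.quotientMapOfLE hle (h • x)) := by
  intro g h x
  rw [hf, quotientMapOfLE_smul]

/-- **TR-2a**: the push-forward of a cocycle along `π : G ⧸ Γ' → G ⧸ Γ` is a cocycle. -/
theorem cocycle_pushFwd (hle : Γ' ≤ Γ) [Finite (G ⧸ Γ')] (f' : G → G ⧸ Γ' → A)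
    (hf' : ∀ (g h : G) (x : G ⧸ Γ'), f' (g * h) x = f' h x + f' g (h • x)) :
    ∀ (g h : G) (x : G ⧸ Γ),
      pushFwd hle (f' (g * h)) x = pushFwd hle (f' h) x + pushFwd hle (f' g) (h • x) := by
  intro g h x
  rw [pushFwd_smul, ← pushFwd_add]
  congr 1
  funext y
  exact hf' g h y

/-- Push-forward of a coboundary. -/
theorem pushFwd_cobd (hle : Γ' ≤ Γ) [Finite (G ⧸ Γ')] (m' : G ⧸ Γ' → A) (u : G) (x : G ⧸ Γ) :
    pushFwd hle (fun y => m' (u • y) - m' y) x = pushFwd hle m' (u • x) - pushFwd hle m' x := by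
  rw [pushFwd_sub, pushFwd_smul]

/-- **TR-3a**: push-forward of parabolic data. -/
theorem parData_pushFwd (hle : Γ' ≤ Γ) [Finite (G ⧸ Γ')] (t u : G) (m' e' : G ⧸ Γ' → A)
    (h : ∀ x : G ⧸ Γ', e' (t • x) - e' x = m' (u • x) - m' x) :
    ∀ x : G ⧸ Γ, pushFwd hle e' (t • x) - pushFwd hle e' x =
      pushFwd hle m' (u • x) - pushFwd hle m' x := by
  intro x
  rw [← pushFwd_cobd, ← pushFwd_cobd]
  congr 1
  funext y
  exact h y

/-- **TR-3b**: adjunction for the Manin form. -/
theorem finsum_pullback_mul_eq (hle : Γ' ≤ Γ) [Finite (G ⧸ Γ')] {R : Type*} [CommRing R]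
    (s : G) (m : G ⧸ Γ → R) (e' : G ⧸ Γ' → R) :
    ∑ᶠ x' : G ⧸ Γ', m (Subgroup.quotientMapOfLE hle x') * (e' x' - e' (s • x')) =
      ∑ᶠ x : G ⧸ Γ, m x * (pushFwd hle e' x - pushFwd hle e' (s • x)) := by
  classical
  haveI : Finite (G ⧸ Γ) :=
    Finite.of_surjective (Subgroup.quotientMapOfLE hle) (by
      intro x
      induction x using QuotientGroup.induction_on with
      | H g => exact ⟨(g : G ⧸ Γ'), rfl⟩)
  letI := Fintype.ofFinite (G ⧸ Γ')
  letI := Fintype.ofFinite (G ⧸ Γ)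
  rw [finsum_eq_sum_of_fintype, finsum_eq_sum_of_fintype]
  have h1 : ∀ x : G ⧸ Γ, pushFwd hle e' x - pushFwd hle e' (s • x) =
      pushFwd hle (fun y => e' y - e' (s • y)) x := by
    intro x
    rw [pushFwd_sub, pushFwd_smul]
  simp only [h1]
  rw [sum_mul_pushFwd]

end Cocycle

section Transfer

variable {G : Type*} [Group G] {Γ' Γ : Subgroup G} {A : Type*} [AddCommGroup A]

theorem range_inclusion_finiteIndex (hle : Γ' ≤ Γ) [Γ'.FiniteIndex] :
    (Subgroup.inclusion hle).range.FiniteIndex := by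
  rw [Subgroup.inclusion_range]
  infer_instance

/-- The map from the cosets of `Γ'` in `Γ` to the fibre of `π : G ⧸ Γ' → G ⧸ Γ` over the base
point. -/
noncomputable def fibreMap (hle : Γ' ≤ Γ) (q : Γ ⧸ (Subgroup.inclusion hle).range) : G ⧸ Γ' :=
  (((q.out : Γ) : G) : G ⧸ Γ')

theorem mem_range_inclusion_iff (hle : Γ' ≤ Γ) (γ : Γ) :
    γ ∈ (Subgroup.inclusion hle).range ↔ (γ : G) ∈ Γ' := by
  rw [Subgroup.inclusion_range, Subgroup.mem_subgroupOf]

theorem fibreMap_mk (hle : Γ' ≤ Γ) (γ : Γ) :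
    fibreMap hle (γ : Γ ⧸ (Subgroup.inclusion hle).range) = ((γ : G) : G ⧸ Γ') := by
  unfold fibreMap
  rw [QuotientGroup.eq]
  have h1 : ((γ : Γ ⧸ (Subgroup.inclusion hle).range)).out⁻¹ * γ ∈
      (Subgroup.inclusion hle).range := by
    rw [← QuotientGroup.eq, QuotientGroup.out_eq']
  rw [mem_range_inclusion_iff] at h1
  simpa using h1

theorem quotientMapOfLE_fibreMap (hle : Γ' ≤ Γ) (q : Γ ⧸ (Subgroup.inclusion hle).range) :
    Subgroup.quotientMapOfLE hle (fibreMap hle q) = ((1 : G) : G ⧸ Γ) := by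
  unfold fibreMap
  rw [Subgroup.quotientMapOfLE_apply_mk, QuotientGroup.eq, mul_one]
  exact inv_mem (q.out).2

theorem fibreMap_injective (hle : Γ' ≤ Γ) : Function.Injective (fibreMap hle) := by
  intro q q' h
  induction q using QuotientGroup.induction_on with
  | H γ =>
    induction q' using QuotientGroup.induction_on with
    | H γ' =>
      rw [fibreMap_mk, fibreMap_mk, QuotientGroup.eq] at h
      rw [QuotientGroup.eq, mem_range_inclusion_iff]
      simpa using h

theorem exists_fibreMap_eq (hle : Γ' ≤ Γ) (x' : G ⧸ Γ')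
    (hx' : Subgroup.quotientMapOfLE hle x' = ((1 : G) : G ⧸ Γ)) :
    ∃ q, fibreMap hle q = x' := by
  induction x' using QuotientGroup.induction_on with
  | H g =>
    rw [Subgroup.quotientMapOfLE_apply_mk, QuotientGroup.eq, mul_one] at hx'
    have hg : g ∈ Γ := by simpa using inv_mem hx'
    exact ⟨((⟨g, hg⟩ : Γ) : Γ ⧸ (Subgroup.inclusion hle).range), fibreMap_mk hle ⟨g, hg⟩⟩

theorem fibreMap_smul (hle : Γ' ≤ Γ) (γ : Γ) (q : Γ ⧸ (Subgroup.inclusion hle).range) :
    fibreMap hle (γ • q) = (γ : G) • fibreMap hle q := by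
  induction q using QuotientGroup.induction_on with
  | H δ =>
    rw [MulAction.Quotient.smul_mk, fibreMap_mk, fibreMap_mk, smul_eq_mul,
      MulAction.Quotient.smul_mk, smul_eq_mul, Subgroup.coe_mul]

/-- Sum over the fibre above the base point. -/
theorem sum_fibreMap (hle : Γ' ≤ Γ) [Fintype (G ⧸ Γ')]
    [Fintype (Γ ⧸ (Subgroup.inclusion hle).range)] (F : G ⧸ Γ' → A) :
    ∑ q : Γ ⧸ (Subgroup.inclusion hle).range, F (fibreMap hle q) =
      pushFwd hle F ((1 : G) : G ⧸ Γ) := by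
  classical
  rw [pushFwd_eq_sum, ← Finset.sum_filter]
  rw [← Finset.sum_image (f := F) (g := fibreMap hle) (s := Finset.univ)
    (fun a _ b _ h => fibreMap_injective hle h)]
  refine Finset.sum_congr ?_ fun _ _ => rfl
  ext x'
  simp only [Finset.mem_image, Finset.mem_univ, true_and, Finset.mem_filter]
  constructor
  · rintro ⟨q, rfl⟩
    exact quotientMapOfLE_fibreMap hle q
  · intro h
    exact exists_fibreMap_eq hle x' h

/-- **TR-2b**: on a cocycle class, Mathlib's transfer along `Γ' ≤ Γ` is the push-forward. -/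
theorem trfH_inclusion_apply (hle : Γ' ≤ Γ) [Γ'.FiniteIndex] (ψ : Additive Γ' →+ A)
    (f' : G → G ⧸ Γ' → A)
    (hf' : ∀ (g h : G) (x : G ⧸ Γ'), f' (g * h) x = f' h x + f' g (h • x))
    (hψ : ∀ γ : Γ', ψ (Additive.ofMul γ) = f' (γ : G) ((1 : G) : G ⧸ Γ')) (γ : Γ) :
    trfH (Subgroup.inclusion hle) ψ (Additive.ofMul γ) =
      pushFwd hle (f' (γ : G)) ((1 : G) : G ⧸ Γ) := by
  classical
  have hfin := range_inclusion_finiteIndex hle
  letI := (Subgroup.inclusion hle).range.fintypeQuotientOfFiniteIndex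
  letI := Γ'.fintypeQuotientOfFiniteIndex
  have hinj : Function.Injective (Subgroup.inclusion hle) := Subgroup.inclusion_injective hle
  -- basic cocycle identities
  have hone : ∀ x, f' 1 x = 0 := by
    intro x
    have := hf' 1 1 x
    rw [one_mul, one_smul] at this
    exact left_eq_add.mp this
  have hinv : ∀ (a : G) (x : G ⧸ Γ'), f' a⁻¹ (a • x) = - f' a x := by
    intro a x
    have := hf' a⁻¹ a x
    rw [inv_mul_cancel, hone] at this
    exact eq_neg_of_add_eq_zero_right this.symm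
  rw [trfH_def _ ⟨hinj, hfin⟩]
  show Multiplicative.toAdd (MonoidHom.transfer _ γ) = _
  rw [Fermat.Agent.S41.H761.transfer_eq_prod_out, toAdd_prod]
  -- the summands
  have hterm : ∀ q : Γ ⧸ (Subgroup.inclusion hle).range,
      Multiplicative.toAdd (((AddMonoidHom.toMultiplicativeRight ψ).comp
        (MonoidHom.ofInjective hinj).symm.toMonoidHom)
          ⟨(q.out)⁻¹ * γ * (γ⁻¹ • q).out,
            Fermat.Agent.S41.H761.out_inv_mul_mul_out_mem _ γ q⟩) =
      f' (((γ⁻¹ • q).out : Γ) : G) ((1 : G) : G ⧸ Γ') - f' ((q.out : Γ) : G) ((1 : G) : G ⧸ Γ')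
        + f' (γ : G) (fibreMap hle (γ⁻¹ • q)) := by
    intro q
    set x : (Subgroup.inclusion hle).range := ⟨(q.out)⁻¹ * γ * (γ⁻¹ • q).out,
      Fermat.Agent.S41.H761.out_inv_mul_mul_out_mem _ γ q⟩ with hx
    set γ' : Γ' := (MonoidHom.ofInjective hinj).symm x with hγ'
    have h0 : ((γ' : Γ') : G) = ((q.out : Γ) : G)⁻¹ * (γ : G) * (((γ⁻¹ • q).out : Γ) : G) := by
      have h1 := MonoidHom.ofInjective_apply hinj (x := γ')
      rw [hγ', MulEquiv.apply_symm_apply] at h1
      have h2 := congrArg (Subtype.val : Γ → G) h1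
      simp only [Subgroup.coe_inclusion] at h2
      rw [← hγ'] at h2
      rw [← h2, hx]
      simp
    show ψ (Additive.ofMul γ') = _
    rw [hψ, h0]
    set a : G := ((q.out : Γ) : G) with ha
    set c : G := (((γ⁻¹ • q).out : Γ) : G) with hc
    have hfix : (γ : G) • (c • ((1 : G) : G ⧸ Γ')) = a • ((1 : G) : G ⧸ Γ') := by
      have h3 : (a⁻¹ * (γ : G) * c) • ((1 : G) : G ⧸ Γ') = ((1 : G) : G ⧸ Γ') := by
        rw [← h0, MulAction.Quotient.smul_mk, smul_eq_mul, mul_one, QuotientGroup.eq, mul_one]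
        exact inv_mem γ'.2
      rw [mul_smul, mul_smul] at h3
      have h4 := congrArg (fun z => a • z) h3
      simpa using h4
    have hfm : fibreMap hle (γ⁻¹ • q) = c • ((1 : G) : G ⧸ Γ') := by
      unfold fibreMap
      rw [MulAction.Quotient.smul_mk, smul_eq_mul, mul_one]
    rw [hf', hf', hfix, hinv, hfm]
    abel
  rw [Finset.sum_congr rfl fun q _ => hterm q, Finset.sum_add_distrib, Finset.sum_sub_distrib]
  have hperm1 : ∑ q : Γ ⧸ (Subgroup.inclusion hle).range,
      f' (((γ⁻¹ • q).out : Γ) : G) ((1 : G) : G ⧸ Γ') =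
      ∑ q : Γ ⧸ (Subgroup.inclusion hle).range, f' ((q.out : Γ) : G) ((1 : G) : G ⧸ Γ') :=
    Equiv.sum_comp (MulAction.toPerm γ⁻¹ : Equiv.Perm (Γ ⧸ (Subgroup.inclusion hle).range))
      (fun q => f' ((q.out : Γ) : G) ((1 : G) : G ⧸ Γ'))
  have hperm2 : ∑ q : Γ ⧸ (Subgroup.inclusion hle).range, f' (γ : G) (fibreMap hle (γ⁻¹ • q)) =
      ∑ q : Γ ⧸ (Subgroup.inclusion hle).range, f' (γ : G) (fibreMap hle q) :=
    Equiv.sum_comp (MulAction.toPerm γ⁻¹ : Equiv.Perm (Γ ⧸ (Subgroup.inclusion hle).range))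
      (fun q => f' (γ : G) (fibreMap hle q))
  rw [hperm1, hperm2, sub_self, zero_add, sum_fibreMap]

end Transfer

end Fermat.Agent.S41.H683
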