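import Mathlib
import Fermat.Agent.S41.Spec.PD
import Fermat.Agent.S41.H683.PDTrCore

/-!
# Row S41, block PD, leaf TR (helper683): the four `Spec/PD.lean` statements

* `transferAlongEquiv : Spec.TransferAlongEquivStatement` (TR-4)
* `maninRepRes        : Spec.ManinRepResStatement`        (TR-1)
* `maninRepCores      : Spec.ManinRepCoresStatement`      (TR-2)
* `maninFormAdjoint   : Spec.ManinFormAdjointStatement`   (TR-3)

Thin wrappers around the `Spec`-independent cores of `H683/PDTrCore.lean`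
(`Spec/PD.lean` v3, built on `Spec/HK.lean`).
-/

set_option autoImplicit false

namespace Fermat.Agent.S41.H683

open Matrix.SpecialLinearGroup ModularGroup
open scoped MatrixGroups

universe u

theorem trf_eq_trfH {G H : Type*} [Group G] [Group H] {A : Type*} [AddCommGroup A]
    (ι : H →* G) (ψ : Additive H →+ A) : Spec.transferAlong ι ψ = trfH ι ψ := rfl

/-- **TR-4**. -/
theorem transferAlongEquiv : Spec.TransferAlongEquivStatement.{u} := by
  intro H H' G _ _ _ e f' A _ ψ
  rw [trf_eq_trfH, trf_eq_trfH]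
  exact trfH_comp_equiv e f' ψ

/-- **TR-1**. -/
theorem maninRepRes : Spec.ManinRepResStatement.{u} := by
  intro Γ' Γ hle A _ φ m hm
  obtain ⟨f, ⟨hf, hS, hU⟩, hφ⟩ := hm
  refine ⟨fun g x' => f g (Subgroup.quotientMapOfLE hle x'), ⟨?_, ?_, ?_⟩, ?_⟩
  · exact cocycle_res hle f hf
  · intro x
    exact hS _
  · intro x
    show f (S * T) (Subgroup.quotientMapOfLE hle x) =
      m (Subgroup.quotientMapOfLE hle ((S * T) • x)) - m (Subgroup.quotientMapOfLE hle x)
    rw [hU, quotientMapOfLE_smul]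
  · intro γ
    exact hφ (Subgroup.inclusion hle γ)

/-- **TR-2**. -/
theorem maninRepCores : Spec.ManinRepCoresStatement.{u} := by
  intro Γ' Γ _ hle A _ ψ m' hm'
  obtain ⟨f', ⟨hf', hS, hU⟩, hψ⟩ := hm'
  haveI : Finite (SL(2, ℤ) ⧸ Γ') := Subgroup.finite_quotient_of_finiteIndex
  refine ⟨fun g x => pushFwd hle (f' g) x, ⟨?_, ?_, ?_⟩, ?_⟩
  · exact cocycle_pushFwd hle f' hf'
  · intro x
    show pushFwd hle (f' S) x = 0
    have : f' S = fun _ => 0 := funext hS
    rw [this, pushFwd_zero]
  · intro x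
    show pushFwd hle (f' (S * T)) x = pushFwd hle m' ((S * T) • x) - pushFwd hle m' x
    have : f' (S * T) = fun y => m' ((S * T) • y) - m' y := funext hU
    rw [this, pushFwd_cobd]
  · intro γ
    rw [trf_eq_trfH]
    exact trfH_inclusion_apply hle ψ f' hf' hψ γ

/-- **TR-3**. -/
theorem maninFormAdjoint : Spec.ManinFormAdjointStatement.{u} := by
  intro Γ' Γ _ hle R _ m m' e' hpar
  haveI : Finite (SL(2, ℤ) ⧸ Γ') := Subgroup.finite_quotient_of_finiteIndex
  refine ⟨?_, ?_⟩
  · exact parData_pushFwd hle T (S * T) m' e' hpar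
  · exact finsum_pullback_mul_eq hle S m e'

end Fermat.Agent.S41.H683
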